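import Mathlib

/-!
# (LA3) Cramer form: explicit kernel frames that commute with every ring homomorphism

* `isUnit_of_isUnit_map_residue` : a square matrix over a local ring which is invertible modulo
  `𝔪` is invertible;
* `map_inv_of_isUnit` : `ρ (P⁻¹) = (ρ P)⁻¹` for a ring hom `ρ` and an invertible matrix `P`;
* `cramerKer P Q` : for a condition matrix `[P | Q]` (pivot block `P` square and invertible),
  the explicit kernel frame `[-P⁻¹ Q ; 1]`, whose columns are the vectors
  `e_t - ∑ i, c_i e_i` with `c = P⁻¹ (Q e_t)` (Cramer);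
* `fromCols_mul_cramerKer`, `ker_fromCols_eq_range`, `cramerKer_mulVec_injective` :
  it is a basis of the kernel;
* `cramerKer_map` : it commutes with EVERY ring hom `ρ : A → A'`.
-/

namespace Fermat.Agent.FF2.LocLA

open Matrix

section Unit

variable {A : Type*} [CommRing A]
variable {κ : Type*} [Fintype κ] [DecidableEq κ]

/-- A square matrix over a local ring which is invertible modulo the maximal ideal is
invertible. -/
theorem isUnit_of_isUnit_map_residue [IsLocalRing A] (P : Matrix κ κ A)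
    (h : IsUnit (P.map (IsLocalRing.residue A))) : IsUnit P := by
  rw [Matrix.isUnit_iff_isUnit_det] at h ⊢
  have hdet : (P.map (IsLocalRing.residue A)).det = IsLocalRing.residue A P.det := by
    rw [RingHom.map_det]; rfl
  rw [hdet] at h
  exact isUnit_of_map_unit (IsLocalRing.residue A) _ h

/-- More generally: invertibility can be tested after any LOCAL ring hom. -/
theorem isUnit_of_isUnit_map_of_isLocalHom {A' : Type*} [CommRing A'] (ρ : A →+* A')
    [IsLocalHom ρ] (P : Matrix κ κ A) (h : IsUnit (P.map ρ)) : IsUnit P := by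
  rw [Matrix.isUnit_iff_isUnit_det] at h ⊢
  have hdet : (P.map ρ).det = ρ P.det := by
    rw [RingHom.map_det]; rfl
  rw [hdet] at h
  exact isUnit_of_map_unit ρ _ h

theorem isUnit_map_of_isUnit {A' : Type*} [CommRing A'] (ρ : A →+* A') (P : Matrix κ κ A)
    (h : IsUnit P) : IsUnit (P.map ρ) := by
  rw [Matrix.isUnit_iff_isUnit_det] at h ⊢
  have hdet : (P.map ρ).det = ρ P.det := by
    rw [RingHom.map_det]; rfl
  rw [hdet]
  exact h.map ρ

/-- Ring homs commute with matrix inverses. -/
theorem map_inv_of_isUnit {A' : Type*} [CommRing A'] (ρ : A →+* A') (P : Matrix κ κ A)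
    (h : IsUnit P) : (P.map ρ)⁻¹ = (P⁻¹).map ρ := by
  apply Matrix.inv_eq_left_inv
  rw [← Matrix.map_mul, Matrix.nonsing_inv_mul _ ((Matrix.isUnit_iff_isUnit_det _).1 h)]
  simp

end Unit

section Cramer

variable {A : Type*} [CommRing A]
variable {κ τ : Type*} [Fintype κ] [DecidableEq κ] [Fintype τ] [DecidableEq τ]

/-- The explicit kernel frame `[-P⁻¹ Q ; 1]` of the condition matrix `[P | Q]`. -/
noncomputable def cramerKer (P : Matrix κ κ A) (Q : Matrix κ τ A) : Matrix (κ ⊕ τ) τ A :=
  Matrix.fromRows (-(P⁻¹ * Q)) 1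

theorem fromCols_mul_cramerKer (P : Matrix κ κ A) (Q : Matrix κ τ A) (hP : IsUnit P) :
    Matrix.fromCols P Q * cramerKer P Q = 0 := by
  unfold cramerKer
  rw [Matrix.fromCols_mul_fromRows, Matrix.mul_neg, ← Matrix.mul_assoc,
    Matrix.mul_nonsing_inv _ ((Matrix.isUnit_iff_isUnit_det _).1 hP)]
  simp

omit [Fintype τ] in
/-- The Cramer frame commutes with every ring hom. -/
theorem cramerKer_map {A' : Type*} [CommRing A'] (ρ : A →+* A') (P : Matrix κ κ A)
    (Q : Matrix κ τ A) (hP : IsUnit P) :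
    (cramerKer P Q).map ρ = cramerKer (P.map ρ) (Q.map ρ) := by
  unfold cramerKer
  rw [map_inv_of_isUnit ρ P hP]
  have hmul : (P⁻¹ * Q).map ρ = P⁻¹.map ρ * Q.map ρ := Matrix.map_mul
  rw [← hmul]
  ext (i | i) j
  · simp only [Matrix.fromRows_apply_inl, Matrix.map_apply, Matrix.neg_apply, map_neg]
  · by_cases h : i = j <;> simp [Matrix.fromRows_apply_inr, h]

theorem cramerKer_mulVec (P : Matrix κ κ A) (Q : Matrix κ τ A) (x : τ → A) :
    cramerKer P Q *ᵥ x = Sum.elim (-(P⁻¹ * Q) *ᵥ x) x := by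
  unfold cramerKer
  rw [Matrix.fromRows_mulVec, Matrix.one_mulVec]

/-- The Cramer frame is injective: its lower block is the identity. -/
theorem cramerKer_mulVec_injective (P : Matrix κ κ A) (Q : Matrix κ τ A) :
    Function.Injective (cramerKer P Q).mulVecLin := by
  intro x y hxy
  have h := congrArg (fun v => v ∘ Sum.inr) hxy
  simpa [Matrix.mulVecLin_apply, cramerKer_mulVec] using h

/-- The Cramer frame spans the kernel of `[P | Q]`. -/
theorem ker_fromCols_eq_range (P : Matrix κ κ A) (Q : Matrix κ τ A) (hP : IsUnit P) :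
    LinearMap.ker (Matrix.fromCols P Q).mulVecLin
      = LinearMap.range (cramerKer P Q).mulVecLin := by
  have hdet := (Matrix.isUnit_iff_isUnit_det _).1 hP
  apply le_antisymm
  · intro x hx
    rw [LinearMap.mem_ker, Matrix.mulVecLin_apply, Matrix.fromCols_mulVec] at hx
    refine ⟨x ∘ Sum.inr, ?_⟩
    rw [Matrix.mulVecLin_apply, cramerKer_mulVec]
    have h1 : x ∘ Sum.inl = -(P⁻¹ * Q) *ᵥ (x ∘ Sum.inr) := by
      have h2 : P *ᵥ (x ∘ Sum.inl) = -(Q *ᵥ (x ∘ Sum.inr)) := eq_neg_of_add_eq_zero_left hx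
      have h3 := congrArg (fun v => P⁻¹ *ᵥ v) h2
      simp only [Matrix.mulVec_mulVec, Matrix.nonsing_inv_mul _ hdet, Matrix.one_mulVec,
        Matrix.mulVec_neg] at h3
      rw [h3, Matrix.neg_mulVec]
    rw [← h1]
    funext i
    rcases i with i | i <;> rfl
  · rintro _ ⟨y, rfl⟩
    rw [LinearMap.mem_ker, Matrix.mulVecLin_apply, Matrix.mulVecLin_apply, Matrix.mulVec_mulVec,
      fromCols_mul_cramerKer P Q hP, Matrix.zero_mulVec]

end Cramer

end Fermat.Agent.FF2.LocLA
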