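import Fermat.Agent.FF2.LocLA.Cramer

/-!
# Pivots: a condition matrix surjective modulo `𝔪` has an invertible maximal minor

* `exists_pivot_field` : over a field, a matrix `κ × ι` whose `mulVecLin` is surjective has an
  injective choice of columns `f : κ → ι` with `M.submatrix id f` invertible;
* `exists_pivot` : over a local ring, the same conclusion from surjectivity modulo `𝔪`;
* `exists_pivot_equiv` : packaged as a reindexing `e : κ ⊕ τ ≃ ι` of the columns for which
  `Φ.submatrix id e = fromCols P Q` with `P` invertible, ready for `cramerKer`.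
-/

namespace Fermat.Agent.FF2.LocLA

open Matrix

/-- Over a field, a surjective matrix has an invertible maximal minor. -/
theorem exists_pivot_field {k : Type*} [Field k] {κ ι : Type*} [Fintype κ] [DecidableEq κ]
    [Fintype ι] (Mk : Matrix κ ι k) (h : Function.Surjective Mk.mulVecLin) :
    ∃ f : κ → ι, Function.Injective f ∧ IsUnit (Mk.submatrix id f) := by
  classical
  have hspan : Submodule.span k (Set.range Mk.col) = ⊤ := by
    rw [← Matrix.range_mulVecLin, LinearMap.range_eq_top.2 h]
  obtain ⟨κ', a, ha, hsp, hli⟩ := exists_linearIndependent' k Mk.col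
  rw [hspan] at hsp
  let b : Module.Basis κ' k (κ → k) := Module.Basis.mk hli (by rw [hsp])
  have : Fintype κ' := Fintype.ofInjective a ha
  have hcard : Fintype.card κ = Fintype.card κ' := by
    rw [← Module.finrank_eq_card_basis b, Module.finrank_pi]
  let e : κ ≃ κ' := Fintype.equivOfCardEq hcard
  refine ⟨a ∘ e, ha.comp e.injective, ?_⟩
  rw [← Matrix.linearIndependent_cols_iff_isUnit]
  have hcol : (Mk.submatrix id (a ∘ e)).col = (Mk.col ∘ a) ∘ e := by
    funext i j
    rfl
  rw [hcol]
  exact hli.comp e e.injective

/-- **(LA3)** Over a local ring, a condition matrix that is surjective modulo `𝔪` has an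
invertible maximal minor. -/
theorem exists_pivot {A : Type*} [CommRing A] [IsLocalRing A] {κ ι : Type*} [Fintype κ]
    [DecidableEq κ] [Fintype ι] (Φ : Matrix κ ι A)
    (h : Function.Surjective (Φ.map (IsLocalRing.residue A)).mulVecLin) :
    ∃ f : κ → ι, Function.Injective f ∧ IsUnit (Φ.submatrix id f) := by
  obtain ⟨f, hf, hu⟩ := exists_pivot_field _ h
  refine ⟨f, hf, isUnit_of_isUnit_map_residue _ ?_⟩
  have : (Φ.submatrix id f).map (IsLocalRing.residue A)
      = (Φ.map (IsLocalRing.residue A)).submatrix id f := by
    ext i j; rfl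
  rw [this]
  exact hu

/-- **(LA3)** packaged: reindex the columns as `κ ⊕ τ ≃ ι` with invertible pivot block. -/
theorem exists_pivot_equiv {A : Type*} [CommRing A] [IsLocalRing A] {κ ι : Type*} [Fintype κ]
    [DecidableEq κ] [Fintype ι] [DecidableEq ι] (Φ : Matrix κ ι A)
    (h : Function.Surjective (Φ.map (IsLocalRing.residue A)).mulVecLin) :
    ∃ (f : κ → ι) (hf : Function.Injective f),
      IsUnit (Φ.submatrix id f) ∧
      Φ.submatrix id (Equiv.sumCompl (· ∈ Set.range f) ∘
        Sum.map (Equiv.ofInjective f hf) id)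
        = Matrix.fromCols (Φ.submatrix id f)
            (Φ.submatrix id (fun t : {i // i ∉ Set.range f} => (t : ι))) := by
  obtain ⟨f, hf, hu⟩ := exists_pivot Φ h
  refine ⟨f, hf, hu, ?_⟩
  ext i (j | j)
  · simp [Matrix.fromCols_apply_inl, Equiv.ofInjective_apply]
  · simp [Matrix.fromCols_apply_inr]

end Fermat.Agent.FF2.LocLA
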